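import Mathlib
import Fermat.Prelude.Def_EllipticCurve_FrobeniusTrace
import Fermat.Prelude.Def_FLTPrelim_Ramification

set_option autoImplicit false
set_option linter.style.haveILetI false

namespace Fermat.Agent.S54

open Polynomial
open scoped Pointwise

theorem mul_mem_nonunits_of_mem {K : Type*} [Field K] (V : ValuationSubring K) {a x : K}
    (ha : a ∈ V.nonunits) (hx : x ∈ V) : a * x ∈ V.nonunits := by
  rw [ValuationSubring.mem_nonunits_iff] at ha ⊢
  rw [map_mul]
  have hx1 : V.valuation x ≤ 1 := (V.valuation_le_one_iff x).mpr hx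
  calc V.valuation a * V.valuation x ≤ V.valuation a * 1 := mul_le_mul_right hx1 _
    _ = V.valuation a := mul_one _
    _ < 1 := ha

theorem exists_mul_eq_of_aeval_eq_zero {R K : Type*} [CommRing R] [Field K] [Algebra R K]
    [IsIntegrallyClosedIn R K] (V : ValuationSubring K) :
    ∀ (n : ℕ) (p : R[X]), p.natDegree ≤ n → ∀ x ∈ V, aeval x p = 0 →
      (∃ i, algebraMap R K (p.coeff i) ∉ V.nonunits) →
      ∃ b s : R, algebraMap R K s ∉ V.nonunits ∧ x * algebraMap R K s = algebraMap R K b := by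
  intro n
  induction n with
  | zero =>
    intro p hp x hx h0 ⟨i, hi⟩
    exfalso
    apply hi
    rw [Polynomial.eq_C_of_natDegree_le_zero hp] at h0 ⊢
    simp only [aeval_C] at h0
    rw [coeff_C]
    split_ifs
    · rw [h0]; exact V.nonunits.zero_mem
    · rw [map_zero]; exact V.nonunits.zero_mem
  | succ n ih =>
    intro p hp x hx h0 ⟨i, hi⟩
    by_cases hpn : p.natDegree ≤ n
    · exact ih p hpn x hx h0 ⟨i, hi⟩
    have hdeg : p.natDegree = n + 1 := by omega
    have hint : IsIntegral R (p.leadingCoeff • x) := isIntegral_leadingCoeff_smul p x h0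
    obtain ⟨y, hy⟩ := IsIntegrallyClosedIn.isIntegral_iff.mp hint
    rw [Algebra.smul_def] at hy
    by_cases hc : algebraMap R K p.leadingCoeff ∈ V.nonunits
    · -- reduce the degree
      have hynon : algebraMap R K y ∈ V.nonunits := by
        rw [hy]
        exact mul_mem_nonunits_of_mem V hc hx
      refine ih (p.eraseLead + C y * X ^ n) ?_ x hx ?_ ?_
      · refine (natDegree_add_le _ _).trans (max_le ?_ (natDegree_C_mul_X_pow_le y n))
        have := eraseLead_natDegree_le p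
        omega
      · have h1 : aeval x p = aeval x p.eraseLead + algebraMap R K p.leadingCoeff * x ^ (n + 1) := by
          conv_lhs => rw [← eraseLead_add_C_mul_X_pow p]
          simp [hdeg]
        rw [h0] at h1
        simp only [map_add, map_mul, aeval_C, map_pow, aeval_X]
        rw [hy]
        linear_combination -h1
      · have hin : i ≠ p.natDegree := by
          rintro rfl
          exact hi hc
        refine ⟨i, ?_⟩
        rw [coeff_add, eraseLead_coeff_of_ne i hin, coeff_C_mul_X_pow]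
        split_ifs with h
        · intro hmem
          apply hi
          rw [map_add] at hmem
          have h2 : algebraMap R K (p.coeff i) =
              (algebraMap R K (p.coeff i) + algebraMap R K y) - algebraMap R K y := by ring
          rw [h2]
          exact V.nonunits.sub_mem hmem hynon
        · simpa using hi
    · exact ⟨y, p.leadingCoeff, hc, by rw [hy]; ring⟩


theorem isAlgebraicQbar : Algebra.IsAlgebraic ℚ (AlgebraicClosure ℚ) :=
  AlgebraicClosure.isAlgebraic ℚ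

theorem isGaloisQbar : IsGalois ℚ (AlgebraicClosure ℚ) :=
  haveI : Algebra.IsAlgebraic ℚ (AlgebraicClosure ℚ) := AlgebraicClosure.isAlgebraic ℚ
  haveI : IsAlgClosure ℚ (AlgebraicClosure ℚ) := ⟨inferInstance, inferInstance⟩
  IsAlgClosure.isGalois ℚ (AlgebraicClosure ℚ)

theorem perfectRing_quotient {A B : Type*} [CommRing A] [CommRing B] [Algebra A B]
    [Algebra.IsIntegral A B] (P : Ideal A) (Q : Ideal B) [P.IsMaximal] [Q.IsMaximal]
    [Q.LiesOver P] [Finite (A ⧸ P)] (ℓ : ℕ) [ExpChar (B ⧸ Q) ℓ] : PerfectRing (B ⧸ Q) ℓ := by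
  letI := Ideal.Quotient.field P
  letI := Ideal.Quotient.field Q
  haveI : PerfectField (A ⧸ P) := PerfectField.ofFinite
  haveI : Algebra.IsAlgebraic (A ⧸ P) (B ⧸ Q) := inferInstance
  haveI : PerfectField (B ⧸ Q) := Algebra.IsAlgebraic.perfectField (A ⧸ P)
  exact PerfectField.toPerfectRing ℓ

section

attribute [local instance] isAlgebraicQbar isGaloisQbar

theorem isInvariantQbar : Algebra.IsInvariant ℤ (integralClosure ℤ (AlgebraicClosure ℚ))
    (AlgebraicClosure ℚ ≃ₐ[ℚ] AlgebraicClosure ℚ) := by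
  refine ⟨fun b hb => ?_⟩
  have h1 : (b : AlgebraicClosure ℚ) ∈ Set.range (algebraMap ℚ (AlgebraicClosure ℚ)) := by
    rw [InfiniteGalois.mem_range_algebraMap_iff_fixed]
    intro f
    have := congrArg Subtype.val (hb f)
    exact this
  obtain ⟨r, hr⟩ := h1
  have hint : IsIntegral ℤ (algebraMap ℚ (AlgebraicClosure ℚ) r) := hr ▸ b.2
  rw [isIntegral_algebraMap_iff (FaithfulSMul.algebraMap_injective ℚ (AlgebraicClosure ℚ))] at hint
  obtain ⟨a, ha⟩ := IsIntegrallyClosed.algebraMap_eq_of_integral hint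
  refine ⟨a, Subtype.ext ?_⟩
  rw [← hr, ← ha]
  simp

theorem isMaximal_span_prime (ℓ : ℕ) (hℓ : ℓ.Prime) : (Ideal.span {(ℓ : ℤ)}).IsMaximal :=
  PrincipalIdealRing.isMaximal_of_irreducible (Nat.prime_iff_prime_int.mp hℓ).irreducible

theorem exists_frob_of_comap_eq (ℓ : ℕ) (hℓ : ℓ.Prime)
    (Q : Ideal (integralClosure ℤ (AlgebraicClosure ℚ))) (hQmax : Q.IsMaximal)
    (hQP : Q.comap (algebraMap ℤ (integralClosure ℤ (AlgebraicClosure ℚ))) =
      Ideal.span {(ℓ : ℤ)}) :
    ∃ σ : AlgebraicClosure ℚ ≃ₐ[ℚ] AlgebraicClosure ℚ,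
      (∀ b, b ∈ Q → σ • b ∈ Q) ∧ (∀ b, b ∈ Q → σ⁻¹ • b ∈ Q) ∧
      ∀ b : integralClosure ℤ (AlgebraicClosure ℚ), σ • b - b ^ ℓ ∈ Q := by
  classical
  have hPmax : (Ideal.span {(ℓ : ℤ)}).IsMaximal := isMaximal_span_prime ℓ hℓ
  haveI : Q.LiesOver (Ideal.span {(ℓ : ℤ)}) := ⟨hQP.symm⟩
  have hℓQ : (ℓ : integralClosure ℤ (AlgebraicClosure ℚ)) ∈ Q := by
    have h1 : (ℓ : ℤ) ∈ Ideal.comap (algebraMap ℤ (integralClosure ℤ (AlgebraicClosure ℚ))) Q := by
      rw [hQP]; exact Ideal.subset_span rfl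
    simpa using h1
  letI : TopologicalSpace (integralClosure ℤ (AlgebraicClosure ℚ)) := ⊥
  haveI : DiscreteTopology (integralClosure ℤ (AlgebraicClosure ℚ)) := ⟨rfl⟩
  haveI : ContinuousSMul (AlgebraicClosure ℚ ≃ₐ[ℚ] AlgebraicClosure ℚ)
      (integralClosure ℤ (AlgebraicClosure ℚ)) := by
    rw [continuousSMul_iff_stabilizer_isOpen]
    intro x
    have h := stabilizer_isOpen_of_isIntegral (K := ℚ) (x : AlgebraicClosure ℚ)
    convert h using 1
    ext g
    simp only [SetLike.mem_coe, MulAction.mem_stabilizer_iff]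
    exact Subtype.ext_iff
  haveI := isInvariantQbar
  -- the residue field
  haveI : Fact ℓ.Prime := ⟨hℓ⟩
  haveI hchar : CharP (integralClosure ℤ (AlgebraicClosure ℚ) ⧸ Q) ℓ := by
    rw [CharP.charP_iff_prime_eq_zero hℓ]
    have := Ideal.Quotient.eq_zero_iff_mem.mpr hℓQ
    simpa using this
  haveI : ExpChar (integralClosure ℤ (AlgebraicClosure ℚ) ⧸ Q) ℓ := ExpChar.prime hℓ
  haveI : Finite (ℤ ⧸ Ideal.span {(ℓ : ℤ)}) :=
    Finite.of_equiv (ZMod ℓ) (Int.quotientSpanNatEquivZMod ℓ).symm.toEquiv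
  haveI : PerfectRing (integralClosure ℤ (AlgebraicClosure ℚ) ⧸ Q) ℓ :=
    perfectRing_quotient (Ideal.span {(ℓ : ℤ)}) Q ℓ
  let l : (integralClosure ℤ (AlgebraicClosure ℚ) ⧸ Q) ≃ₐ[ℤ ⧸ Ideal.span {(ℓ : ℤ)}]
      (integralClosure ℤ (AlgebraicClosure ℚ) ⧸ Q) :=
    { frobeniusEquiv (integralClosure ℤ (AlgebraicClosure ℚ) ⧸ Q) ℓ with
      commutes' := fun r => by
        obtain ⟨n, rfl⟩ := Ideal.Quotient.mk_surjective r
        have h2 : algebraMap (ℤ ⧸ Ideal.span {(ℓ : ℤ)})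
            (integralClosure ℤ (AlgebraicClosure ℚ) ⧸ Q) (Ideal.Quotient.mk _ n) =
            ((n : ℤ) : integralClosure ℤ (AlgebraicClosure ℚ) ⧸ Q) := by
          simp
        rw [h2]
        simp }
  obtain ⟨⟨σ, hσ⟩, hσl⟩ := Ideal.Quotient.stabilizerHom_surjective_of_profinite
    (G := AlgebraicClosure ℚ ≃ₐ[ℚ] AlgebraicClosure ℚ) (Ideal.span {(ℓ : ℤ)}) Q l
  have hfrob : ∀ b : integralClosure ℤ (AlgebraicClosure ℚ), σ • b - b ^ ℓ ∈ Q := by
    intro b
    have h3 := congrArg (fun f => f (Ideal.Quotient.mk Q b)) hσl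
    simp only [Ideal.Quotient.stabilizerHom_apply] at h3
    rw [← Ideal.Quotient.eq, map_pow]
    exact h3
  refine ⟨σ, ?_, ?_, hfrob⟩
  · intro b hb
    have h4 := hfrob b
    have h5 : σ • b = (σ • b - b ^ ℓ) + b ^ ℓ := by ring
    rw [h5]
    exact Q.add_mem h4 (Q.pow_mem_of_mem hb ℓ hℓ.pos)
  · intro b hb
    have hσ' : σ⁻¹ ∈ MulAction.stabilizer (AlgebraicClosure ℚ ≃ₐ[ℚ] AlgebraicClosure ℚ) Q :=
      inv_mem hσ
    rw [MulAction.mem_stabilizer_iff] at hσ'
    rw [← hσ']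
    exact Ideal.smul_mem_pointwise_smul _ _ _ hb

theorem inv_mem_of_not_mem_nonunits {K : Type*} [Field K] (V : ValuationSubring K) {x : K}
    (hx' : x ∉ V.nonunits) : x⁻¹ ∈ V := by
  rw [ValuationSubring.mem_nonunits_iff_or] at hx'
  push Not at hx'
  exact hx'.2

theorem one_notMem_nonunits {K : Type*} [Field K] (V : ValuationSubring K) :
    (1 : K) ∉ V.nonunits := by
  rw [ValuationSubring.mem_nonunits_iff, map_one]
  exact lt_irrefl _

theorem integralClosure_le_valuationSubring (V : ValuationSubring (AlgebraicClosure ℚ))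
    (b : integralClosure ℤ (AlgebraicClosure ℚ)) : (b : AlgebraicClosure ℚ) ∈ V := by
  have h1 : IsIntegral ℤ (b : AlgebraicClosure ℚ) := b.2
  have h2 : IsIntegral V (b : AlgebraicClosure ℚ) := h1.tower_top
  obtain ⟨y, hy⟩ := IsIntegrallyClosed.isIntegral_iff.mp h2
  rw [← hy]
  exact y.2

/-- Every valuation subring of `ℚ̄` over a prime `ℓ` has a Frobenius element. -/
theorem exists_isFrobeniusAt_of_liesOverPrime (ℓ : ℕ) (hℓ : ℓ.Prime)
    (V : ValuationSubring (AlgebraicClosure ℚ)) (hℓV : V.LiesOverPrime ℓ) :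
    ∃ σ : AlgebraicClosure ℚ ≃ₐ[ℚ] AlgebraicClosure ℚ, V.IsFrobeniusAt σ ℓ := by
  have hB : ∀ b : integralClosure ℤ (AlgebraicClosure ℚ), (b : AlgebraicClosure ℚ) ∈ V :=
    integralClosure_le_valuationSubring V
  let f : integralClosure ℤ (AlgebraicClosure ℚ) →+* V :=
    { toFun := fun b => ⟨b, hB b⟩
      map_one' := rfl
      map_mul' := fun _ _ => rfl
      map_zero' := rfl
      map_add' := fun _ _ => rfl }
  let Q : Ideal (integralClosure ℤ (AlgebraicClosure ℚ)) :=
    (IsLocalRing.maximalIdeal V).comap f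
  have hQ : ∀ b : integralClosure ℤ (AlgebraicClosure ℚ),
      b ∈ Q ↔ (b : AlgebraicClosure ℚ) ∈ V.nonunits := fun b => by
    rw [Ideal.mem_comap, ← ValuationSubring.coe_mem_nonunits_iff]
    rfl
  have hQn : ∀ b : integralClosure ℤ (AlgebraicClosure ℚ), b ∈ Q →
      (b : AlgebraicClosure ℚ) ∈ V.nonunits := fun b hb => (hQ b).mp hb
  have hnQ : ∀ s : integralClosure ℤ (AlgebraicClosure ℚ), s ∉ Q →
      (s : AlgebraicClosure ℚ) ∉ V.nonunits := fun s hs h => hs ((hQ s).mpr h)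
  have hQprime : Q.IsPrime := Ideal.comap_isPrime f _
  have hQP : Q.comap (algebraMap ℤ (integralClosure ℤ (AlgebraicClosure ℚ))) =
      Ideal.span {(ℓ : ℤ)} := by
    symm
    refine (isMaximal_span_prime ℓ hℓ).eq_of_le (Ideal.IsPrime.ne_top inferInstance) ?_
    rw [Ideal.span_le, Set.singleton_subset_iff, SetLike.mem_coe, Ideal.mem_comap, hQ]
    have h0 : ((ℓ : ℕ) : AlgebraicClosure ℚ) ∈ V.nonunits := hℓV
    simpa using h0
  have hQmax : Q.IsMaximal := by
    haveI : (Q.comap (algebraMap ℤ (integralClosure ℤ (AlgebraicClosure ℚ)))).IsMaximal :=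
      hQP ▸ isMaximal_span_prime ℓ hℓ
    exact Ideal.isMaximal_of_isIntegral_of_isMaximal_comap (R := ℤ) Q this
  obtain ⟨σ, hσQ, hσQ', hfrob⟩ := exists_frob_of_comap_eq ℓ hℓ Q hQmax hQP
  -- every element of V is a fraction b / s with s outside Q
  have hfrac : ∀ x ∈ V, ∃ b s : integralClosure ℤ (AlgebraicClosure ℚ), s ∉ Q ∧
      x * (s : AlgebraicClosure ℚ) = b := by
    intro x hx
    have halg : IsAlgebraic ℤ x :=
      (IsFractionRing.isAlgebraic_iff ℤ ℚ (AlgebraicClosure ℚ)).mpr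
        (Algebra.IsAlgebraic.isAlgebraic x)
    obtain ⟨p0, hp0, hp0x⟩ := halg
    have hprim := aeval_primPart_eq_zero hp0 hp0x
    have hcoeff : ∃ i, ¬ ((ℓ : ℤ) ∣ p0.primPart.coeff i) := by
      by_contra hcon
      push Not at hcon
      have h1 := (C_dvd_iff_dvd_coeff _ _).mpr hcon
      exact (Nat.prime_iff_prime_int.mp hℓ).not_isUnit (p0.isPrimitive_primPart _ h1)
    obtain ⟨i, hi⟩ := hcoeff
    have key := exists_mul_eq_of_aeval_eq_zero (R := integralClosure ℤ (AlgebraicClosure ℚ)) V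
      (p0.primPart.map (algebraMap ℤ (integralClosure ℤ (AlgebraicClosure ℚ)))).natDegree
      (p0.primPart.map (algebraMap ℤ (integralClosure ℤ (AlgebraicClosure ℚ)))) le_rfl x hx
      (by rw [aeval_map_algebraMap]; exact hprim)
      ⟨i, by
        rw [coeff_map]
        intro hmem
        have hcop : IsCoprime (ℓ : ℤ) (p0.primPart.coeff i) :=
          (Nat.prime_iff_prime_int.mp hℓ).irreducible.coprime_iff_not_dvd.mpr hi
        obtain ⟨u, w, huw⟩ := hcop
        apply one_notMem_nonunits V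
        have h2 : (1 : AlgebraicClosure ℚ) =
            (ℓ : AlgebraicClosure ℚ) * (u : AlgebraicClosure ℚ) +
            algebraMap (integralClosure ℤ (AlgebraicClosure ℚ)) (AlgebraicClosure ℚ)
              (algebraMap ℤ (integralClosure ℤ (AlgebraicClosure ℚ)) (p0.primPart.coeff i)) *
              (w : AlgebraicClosure ℚ) := by
          have := congrArg (Int.cast (R := AlgebraicClosure ℚ)) huw
          push_cast at this
          rw [← this]
          simp
          ring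
        rw [h2]
        refine V.nonunits.add_mem (mul_mem_nonunits_of_mem V hℓV ?_)
          (mul_mem_nonunits_of_mem V hmem ?_)
        · exact intCast_mem V u
        · exact intCast_mem V w⟩
    obtain ⟨b, s, hs, hxs⟩ := key
    exact ⟨b, s, fun hsQ => hs (hQn s hsQ), hxs⟩
  -- stability
  have hstab : ∀ τ : AlgebraicClosure ℚ ≃ₐ[ℚ] AlgebraicClosure ℚ,
      (∀ b, b ∈ Q → τ⁻¹ • b ∈ Q) → ∀ x ∈ V, τ x ∈ V := by
    intro τ hτ x hx
    obtain ⟨b, s, hs, hxs⟩ := hfrac x hx
    have hτs : τ • s ∉ Q := by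
      intro h
      apply hs
      have := hτ _ h
      rwa [inv_smul_smul] at this
    have hτsn := hnQ _ hτs
    have hinv := inv_mem_of_not_mem_nonunits V hτsn
    have hne : ((τ • s : integralClosure ℤ (AlgebraicClosure ℚ)) : AlgebraicClosure ℚ) ≠ 0 := by
      intro h0
      apply hτsn
      rw [h0]
      exact V.nonunits.zero_mem
    have h1 : τ x * ((τ • s : integralClosure ℤ (AlgebraicClosure ℚ)) : AlgebraicClosure ℚ) =
        ((τ • b : integralClosure ℤ (AlgebraicClosure ℚ)) : AlgebraicClosure ℚ) := by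
      rw [integralClosure.coe_smul, integralClosure.coe_smul, AlgEquiv.smul_def,
        AlgEquiv.smul_def, ← map_mul, hxs]
    have h2 : τ x = ((τ • b : integralClosure ℤ (AlgebraicClosure ℚ)) : AlgebraicClosure ℚ) *
        ((τ • s : integralClosure ℤ (AlgebraicClosure ℚ)) : AlgebraicClosure ℚ)⁻¹ := by
      rw [← h1, mul_assoc, mul_inv_cancel₀ hne, mul_one]
    rw [h2]
    exact V.mul_mem _ _ (hB _) hinv
  have hσV : σ ∈ V.decompositionSubgroup ℚ := by
    rw [MulAction.mem_stabilizer_iff]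
    apply SetLike.ext
    intro x
    rw [ValuationSubring.mem_pointwise_smul_iff_inv_smul_mem]
    constructor
    · intro h
      have h3 := hstab σ hσQ' _ h
      have e : σ (σ⁻¹ • x) = x := by
        rw [AlgEquiv.smul_def, ← AlgEquiv.mul_apply, mul_inv_cancel, AlgEquiv.one_apply]
      rwa [e] at h3
    · intro h
      have := hstab σ⁻¹ (by rw [inv_inv]; exact hσQ) x h
      exact this
  refine ⟨σ, hσV, ?_⟩
  intro x
  obtain ⟨a, rfl⟩ := IsLocalRing.residue_surjective x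
  rw [← IsLocalRing.ResidueField.residue_smul, ← map_pow]
  rw [← sub_eq_zero, ← map_sub, IsLocalRing.residue_eq_zero_iff,
    ← ValuationSubring.coe_mem_nonunits_iff]
  obtain ⟨b, s, hs, hxs⟩ := hfrac a a.2
  have hσs : σ • s ∉ Q := by
    intro h
    apply hs
    have := hσQ' _ h
    rwa [inv_smul_smul] at this
  have hsn := hnQ _ hs
  have hσsn := hnQ _ hσs
  have hs0 : (s : AlgebraicClosure ℚ) ≠ 0 := by
    intro h0
    apply hsn
    rw [h0]
    exact V.nonunits.zero_mem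
  have hσs0 : ((σ • s : integralClosure ℤ (AlgebraicClosure ℚ)) : AlgebraicClosure ℚ) ≠ 0 := by
    intro h0
    apply hσsn
    rw [h0]
    exact V.nonunits.zero_mem
  have hN := hQn _ (hfrob b)
  have hM := hQn _ (hfrob s)
  have hσx : σ (a : AlgebraicClosure ℚ) *
      ((σ • s : integralClosure ℤ (AlgebraicClosure ℚ)) : AlgebraicClosure ℚ) =
      ((σ • b : integralClosure ℤ (AlgebraicClosure ℚ)) : AlgebraicClosure ℚ) := by
    rw [integralClosure.coe_smul, integralClosure.coe_smul, AlgEquiv.smul_def,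
      AlgEquiv.smul_def, ← map_mul, hxs]
  have hcoe : ((((⟨σ, hσV⟩ : V.decompositionSubgroup ℚ) • a - a ^ ℓ : V)) : AlgebraicClosure ℚ) =
      σ (a : AlgebraicClosure ℚ) - (a : AlgebraicClosure ℚ) ^ ℓ := rfl
  rw [hcoe]
  have hkey : σ (a : AlgebraicClosure ℚ) - (a : AlgebraicClosure ℚ) ^ ℓ =
      (((σ • b - b ^ ℓ : integralClosure ℤ (AlgebraicClosure ℚ)) : AlgebraicClosure ℚ) *
          (s : AlgebraicClosure ℚ) ^ ℓ -
        ((σ • s - s ^ ℓ : integralClosure ℤ (AlgebraicClosure ℚ)) : AlgebraicClosure ℚ) *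
          (b : AlgebraicClosure ℚ) ^ ℓ) *
      (((σ • s : integralClosure ℤ (AlgebraicClosure ℚ)) : AlgebraicClosure ℚ)⁻¹ *
        ((s : AlgebraicClosure ℚ)⁻¹) ^ ℓ) := by
    simp only [Subalgebra.coe_sub, Subalgebra.coe_pow]
    rw [← hσx, ← hxs]
    have hu : ((σ • s : integralClosure ℤ (AlgebraicClosure ℚ)) : AlgebraicClosure ℚ) *
        ((σ • s : integralClosure ℤ (AlgebraicClosure ℚ)) : AlgebraicClosure ℚ)⁻¹ = 1 :=
      mul_inv_cancel₀ hσs0
    have hpow : (s : AlgebraicClosure ℚ) ^ ℓ * ((s : AlgebraicClosure ℚ)⁻¹) ^ ℓ = 1 := by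
      rw [← mul_pow, mul_inv_cancel₀ hs0, one_pow]
    linear_combination (-(σ (a : AlgebraicClosure ℚ) - (a : AlgebraicClosure ℚ) ^ ℓ) *
      ((s : AlgebraicClosure ℚ) ^ ℓ * ((s : AlgebraicClosure ℚ)⁻¹) ^ ℓ)) * hu -
      (σ (a : AlgebraicClosure ℚ) - (a : AlgebraicClosure ℚ) ^ ℓ) * hpow
  rw [hkey]
  refine mul_mem_nonunits_of_mem V (V.nonunits.sub_mem (mul_mem_nonunits_of_mem V hN ?_)
    (mul_mem_nonunits_of_mem V hM ?_)) ?_
  · exact pow_mem (hB s) ℓ
  · exact pow_mem (hB b) ℓ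
  · exact V.mul_mem _ _ (inv_mem_of_not_mem_nonunits V hσsn)
      (pow_mem (inv_mem_of_not_mem_nonunits V hsn) ℓ)

theorem exists_liesOverPrime (ℓ : ℕ) (hℓ : ℓ.Prime) :
    ∃ V : ValuationSubring (AlgebraicClosure ℚ), V.LiesOverPrime ℓ := by
  haveI := isMaximal_span_prime ℓ hℓ
  obtain ⟨Q, hQmax, hQP⟩ := Ideal.exists_ideal_over_maximal_of_isIntegral
    (S := integralClosure ℤ (AlgebraicClosure ℚ)) (Ideal.span {(ℓ : ℤ)}) (by
      rw [(RingHom.injective_iff_ker_eq_bot _).mp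
        (FaithfulSMul.algebraMap_injective ℤ (integralClosure ℤ (AlgebraicClosure ℚ)))]
      exact bot_le)
  have hℓQ : (ℓ : integralClosure ℤ (AlgebraicClosure ℚ)) ∈ Q := by
    have h1 : (ℓ : ℤ) ∈ Ideal.comap (algebraMap ℤ (integralClosure ℤ (AlgebraicClosure ℚ))) Q := by
      rw [hQP]; exact Ideal.subset_span rfl
    simpa using h1
  have hQtop : (Q : Ideal (integralClosure ℤ (AlgebraicClosure ℚ)).toSubring) ≠ ⊤ :=
    hQmax.ne_top
  obtain ⟨V, -, hQV⟩ := Ideal.image_subset_nonunits_valuationSubring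
    (A := (integralClosure ℤ (AlgebraicClosure ℚ)).toSubring) Q hQtop
  refine ⟨V, ?_⟩
  have := hQV ⟨_, hℓQ, rfl⟩
  simpa [ValuationSubring.LiesOverPrime] using this

/-- Every prime has a place of `ℚ̄` above it together with a Frobenius element. -/
theorem exists_isFrobeniusAt (ℓ : ℕ) (hℓ : ℓ.Prime) :
    ∃ (A : ValuationSubring (AlgebraicClosure ℚ))
      (σ : AlgebraicClosure ℚ ≃ₐ[ℚ] AlgebraicClosure ℚ),
      A.LiesOverPrime ℓ ∧ A.IsFrobeniusAt σ ℓ := by
  obtain ⟨V, hV⟩ := exists_liesOverPrime ℓ hℓ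
  obtain ⟨σ, hσ⟩ := exists_isFrobeniusAt_of_liesOverPrime ℓ hℓ V hV
  exact ⟨V, σ, hV, hσ⟩

end

end Fermat.Agent.S54
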